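import Fermat.Agent.DeligneSerre.X1.Hecke.Product
import Fermat.Agent.DeligneSerre.X1.Kummer.Main
import Fermat.Agent.DeligneSerre.Periods.Corr

/-!
# Correspondences and the Kummer isomorphism over `ℂ`

An operator on the function field sending an invariant function to the product of its translates
under a correspondence sends the multiplier of an `n`-th root to its transfer.
-/

set_option autoImplicit false
set_option linter.unusedSectionVars false

noncomputable section

open scoped MatrixGroups
open UpperHalfPlane hiding I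
open Filter Topology

namespace FermatAgent.DeligneSerre.Curves

open FermatAgent.ModCurveTorsion (GermEq NowhereZero slMat HasMultiplier det_slMat_pos
  meromorphicOn_comp_mob)
open FermatAgent.ModCurveGroup (KillsEP)
open FermatAgent.Periods (HeckeCorr mob im_mob_pos)
open FermatAgent.DeligneSerre.X1 (levelRingOf corrProd corrProd_mem corrProd_ne_zero mobPt
  coe_mobPt kummerSel)

local notation "ℍo" => UpperHalfPlane.upperHalfPlaneSet

variable {Γ : Subgroup SL(2, ℤ)} [IsCurveGroup Γ] {n : ℕ} [NeZero n]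

theorem stdAddChar_ne_zero (a : ZMod n) : ZMod.stdAddChar a ≠ 0 := fun h => by
  have h1 := AddChar.norm_apply (ZMod.stdAddChar (N := n)) a
  rw [h, norm_zero] at h1
  exact zero_ne_one h1

theorem germEq_inv {f g : ℂ → ℂ} (h : GermEq f g) : GermEq f⁻¹ g⁻¹ := fun z hz => (h z hz).inv

/-- A root whose multiplier kills elliptic and parabolic elements has orders divisible by `n`. -/
theorem isKummerMult_of_root {y : (FieldOf Γ)ˣ} {φ : Additive Γ →+ ZMod n} (hφ : KillsEP Γ φ)
    {g : ℂ → ℂ} (hg : MeromorphicOn g ℍo) (hgn : GermEq (g ^ n) (evalFun (y : FieldOf Γ)))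
    (hm : HasMultiplier g fun γ => ZMod.stdAddChar (φ (Additive.ofMul γ))) :
    IsKummerMult n y φ := by
  obtain ⟨y', hy's, g', hg', hgn', hm'⟩ := exists_isKummerMult_of_killsEP hφ
  have hpow : GermEq ((g * g'⁻¹) ^ n) (evalFun ((y * y'⁻¹ : (FieldOf Γ)ˣ) : FieldOf Γ)) := by
    rw [mul_pow, inv_pow, Units.val_mul, Units.val_inv_eq_inv_val]
    refine GermEq.trans ?_ (evalFun_mul _ _).symm
    exact hgn.mul ((germEq_inv hgn').trans (evalFun_inv _).symm)
  obtain ⟨u, hu⟩ := exists_evalFun_eq (NeZero.ne n) (y * y'⁻¹).ne_zero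
    (fun z hz => (hg z hz).mul (hg' z hz).inv) hpow fun γ z hz => by
      filter_upwards [hm γ z hz, hm' γ z hz] with w h1 h2
      simp only [Function.comp_apply] at h1 h2
      simp only [Function.comp_apply, Pi.mul_apply, Pi.inv_apply, h1, h2, mul_inv]
      field_simp [stdAddChar_ne_zero (φ (Additive.ofMul γ))]
  have hfu : ((y * y'⁻¹ : (FieldOf Γ)ˣ) : FieldOf Γ) = u ^ n :=
    evalFun_injective ((hpow.symm.trans (hu.symm.pow n)).trans (evalFun_pow u n).symm)
  have hu0 : u ≠ 0 := fun h => (y * y'⁻¹).ne_zero (by rw [hfu, h, zero_pow (NeZero.ne n)])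
  have hy : y = Units.mk0 u hu0 ^ n * y' := by
    rw [← mul_inv_eq_iff_eq_mul]
    exact Units.ext (by rw [hfu, Units.val_pow_eq_pow_val, Units.val_mk0])
  refine ⟨?_, g, hg, hgn, hm⟩
  rw [hy]
  exact mul_mem (isKummerMult_pow_self (Units.mk0 u hu0)).1 hy's

variable {ι : Type} [Fintype ι] (D : HeckeCorr Γ ι) (hD : ∀ i, 0 < (D.rep i).det)

theorem ofComplex_mob_eq (i : ι) {w : ℂ} (hw : 0 < w.im) :
    ofComplex (mob (D.rep i) w) = mobPt (D.rep i) (hD i) (ofComplex w) := by
  refine UpperHalfPlane.ext ?_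
  rw [coe_mobPt, ofComplex_apply_of_im_pos hw,
    ofComplex_apply_of_im_pos (im_mob_pos (D.rep i) (hD i) hw)]

theorem evalC_corrProd (a : levelRingOf Γ) :
    Set.EqOn (evalC 1 (⟨_, corrProd_mem D hD a.2⟩ : levelRingOf Γ))
      (∏ i, evalC 1 a ∘ mob (D.rep i)) ℍo := fun w hw => by
  simp only [evalC, one_smul, Finset.prod_apply, Function.comp_apply, corrProd]
  refine Finset.prod_congr rfl fun i _ => ?_
  rw [ofComplex_mob_eq D hD i hw]

variable (T : FieldOf Γ →* FieldOf Γ)
  (hT : ∀ a : levelRingOf Γ, T (toField Γ a) = toField Γ ⟨_, corrProd_mem D hD a.2⟩)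

include hT in
/-- `T y` is the product of the translates of `y`. -/
theorem evalFun_corr (y : FieldOf Γ) :
    GermEq (evalFun (T y)) (∏ i, evalFun y ∘ mob (D.rep i)) := by
  set a := evalNum y
  set b := evalDen y
  have hb' : toField Γ (⟨_, corrProd_mem D hD b.2⟩ : levelRingOf Γ) ≠ 0 := by
    rw [Ne, map_eq_zero_iff _ (toField_injective Γ)]
    exact fun h => corrProd_ne_zero D hD (evalDen_ne_zero y) (congrArg Subtype.val h)
  have hb : toField Γ b ≠ 0 := by
    rw [Ne, map_eq_zero_iff _ (toField_injective Γ)]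
    exact evalDen_ne_zero y
  have hTy : T y = toField Γ ⟨_, corrProd_mem D hD a.2⟩ *
      (toField Γ ⟨_, corrProd_mem D hD b.2⟩)⁻¹ := by
    rw [← div_eq_mul_inv, eq_div_iff hb', ← hT, ← hT, ← map_mul]
    congr 1
    rw [show y = toField Γ a / toField Γ b from eq_evalNum_div_evalDen y, div_mul_cancel₀ _ hb]
  rw [hTy]
  refine (evalFun_mul _ _).trans ?_
  refine (((evalFun_toField _).trans (GermEq.of_eqOn (evalC_corrProd D hD a))).mul
    ((evalFun_inv _).trans (germEq_inv ((evalFun_toField _).trans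
      (GermEq.of_eqOn (evalC_corrProd D hD b)))))).trans (GermEq.of_eqOn fun w _ => ?_)
  simp only [Pi.mul_apply, Pi.inv_apply, Finset.prod_apply, Function.comp_apply, evalFun,
    ← Finset.prod_inv_distrib, ← Finset.prod_mul_distrib, div_eq_mul_inv]
  rfl

include hT in
/-- The multiplier of a root of `T y` is the transfer. -/
theorem IsKummerMult.corr {y : (FieldOf Γ)ˣ} {φ : Additive Γ →+ ZMod n} (hy : IsKummerMult n y φ) :
    IsKummerMult n (Units.map T y) (D.transfer ℤ φ) := by
  obtain ⟨-, g, hg, hgn, hm⟩ := id hy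
  refine isKummerMult_of_root (Periods.transfer_killsEP D hy.killsEP)
    (g := ∏ i, g ∘ mob (D.rep i)) ?_ ?_ ?_
  · exact fun z hz => MeromorphicAt.prod fun i _ => meromorphicOn_comp_mob hg (hD i) z hz
  · refine GermEq.trans ?_ (evalFun_corr D hD T hT (y : FieldOf Γ)).symm
    intro z hz
    filter_upwards [eventually_all.mpr fun i => (hgn.comp_mob (hD i)) z hz] with w hw
    simp only [Pi.pow_apply, Finset.prod_apply, Function.comp_apply] at hw ⊢
    rw [← Finset.prod_pow]
    exact Finset.prod_congr rfl fun i _ => hw i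
  · convert hm.prod_corr D hD using 1
    funext γ
    rw [HeckeCorr.transfer_apply]
    exact map_prod (ZMod.stdAddChar (N := n)).toMonoidHom
      (fun i => Multiplicative.ofAdd (φ (Additive.ofMul (D.move γ i)))) Finset.univ

end FermatAgent.DeligneSerre.Curves
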